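/-
S56 marathon, EulerG/ (helper2).  Abstract linear algebra behind Minkowski's construction of a
Galois-equivariant family of independent units.

* `exists_approx`: every element of the real span of a subgroup `Λ(E)` of `Ω → ℝ` can be followed,
  up to a bounded error, by elements of the subgroup along all its integer multiples.
* `exists_neg_off`: if the real span of `Λ(E)` contains the sum-zero hyperplane then for every
  `w₀` there is `x ∈ E` whose coordinates off `w₀` are all negative.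
* `eq_zero_of_offdiag_neg`: a real matrix with negative off-diagonal entries and zero row sums has
  no non-zero left-kernel vector of coordinate sum zero.
-/
import Mathlib

set_option autoImplicit false

namespace Fermat.Agent.S56lib.EulerG

open Finset

section Approx

variable {Ω : Type*} [Fintype Ω] {E : Type*} [AddCommGroup E]

theorem exists_approx (Λ : E →+ (Ω → ℝ)) (y : Ω → ℝ)
    (hy : y ∈ Submodule.span ℝ (Set.range Λ)) :
    ∃ B : ℝ, ∀ n : ℤ, ∃ x : E, ∀ w, |Λ x w - n * y w| ≤ B := by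
  induction hy using Submodule.span_induction with
  | mem y hy =>
    obtain ⟨e, rfl⟩ := hy
    refine ⟨0, fun n => ⟨n • e, fun w => ?_⟩⟩
    rw [map_zsmul, Pi.smul_apply, zsmul_eq_mul, sub_self, abs_zero]
  | zero =>
    refine ⟨0, fun n => ⟨0, fun w => ?_⟩⟩
    simp
  | add y z _ _ hy hz =>
    obtain ⟨B, hB⟩ := hy
    obtain ⟨C, hC⟩ := hz
    refine ⟨B + C, fun n => ?_⟩
    obtain ⟨x, hx⟩ := hB n
    obtain ⟨x', hx'⟩ := hC n
    refine ⟨x + x', fun w => ?_⟩
    rw [map_add, Pi.add_apply, Pi.add_apply]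
    have h1 : Λ x w + Λ x' w - n * (y w + z w) = (Λ x w - n * y w) + (Λ x' w - n * z w) := by ring
    rw [h1]
    exact (abs_add_le _ _).trans (add_le_add (hx w) (hx' w))
  | smul c y _ hy =>
    obtain ⟨B, hB⟩ := hy
    refine ⟨B + ∑ w, |y w|, fun n => ?_⟩
    obtain ⟨x, hx⟩ := hB ⌊(n : ℝ) * c⌋
    refine ⟨x, fun w => ?_⟩
    rw [Pi.smul_apply, smul_eq_mul]
    have h1 : Λ x w - n * (c * y w) =
        (Λ x w - (⌊(n : ℝ) * c⌋ : ℝ) * y w) + ((⌊(n : ℝ) * c⌋ : ℝ) - n * c) * y w := by ring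
    rw [h1]
    refine (abs_add_le _ _).trans (add_le_add (hx w) ?_)
    rw [abs_mul]
    have h2 : |((⌊(n : ℝ) * c⌋ : ℝ) - n * c)| ≤ 1 := by
      rw [abs_le]
      constructor
      · have := Int.lt_floor_add_one ((n : ℝ) * c)
        linarith
      · have := Int.floor_le ((n : ℝ) * c)
        linarith
    have h3 : |y w| ≤ ∑ w, |y w| :=
      Finset.single_le_sum (f := fun w => |y w|) (fun i _ => abs_nonneg _) (Finset.mem_univ w)
    calc |((⌊(n : ℝ) * c⌋ : ℝ) - n * c)| * |y w| ≤ 1 * |y w| :=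
          mul_le_mul_of_nonneg_right h2 (abs_nonneg _)
      _ = |y w| := one_mul _
      _ ≤ _ := h3

theorem exists_neg_off [DecidableEq Ω] (Λ : E →+ (Ω → ℝ))
    (hspan : ∀ y : Ω → ℝ, ∑ w, y w = 0 → y ∈ Submodule.span ℝ (Set.range Λ)) (w₀ : Ω) :
    ∃ x : E, ∀ w, w ≠ w₀ → Λ x w < 0 := by
  set y : Ω → ℝ := fun w => if w = w₀ then (Fintype.card Ω : ℝ) - 1 else -1 with hy
  have hsum : ∑ w, y w = 0 := by
    have h1 : ∀ w, y w = (if w = w₀ then (Fintype.card Ω : ℝ) else 0) + (-1) := by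
      intro w
      simp only [hy]
      split_ifs <;> ring
    rw [Finset.sum_congr rfl (fun w _ => h1 w), Finset.sum_add_distrib, Finset.sum_ite_eq']
    simp
  obtain ⟨B, hB⟩ := exists_approx Λ y (hspan y hsum)
  obtain ⟨n, hn⟩ := exists_nat_gt B
  obtain ⟨x, hx⟩ := hB n
  refine ⟨x, fun w hw => ?_⟩
  have h1 := (abs_le.mp (hx w)).2
  have h2 : y w = -1 := by simp [hy, hw]
  rw [h2] at h1
  have h3 : ((n : ℤ) : ℝ) = (n : ℝ) := by norm_cast
  rw [h3] at h1
  linarith

end Approx

section Matrix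

variable {Ω : Type*} [Fintype Ω] [DecidableEq Ω]

theorem exists_pos_lt_offdiag (M : Matrix Ω Ω ℝ) (hneg : ∀ w w', w ≠ w' → M w w' < 0) :
    ∃ δ : ℝ, 0 < δ ∧ ∀ w w', w ≠ w' → δ < -M w w' := by
  set s : Finset ℝ := insert 1 (Finset.univ.image
    (fun p : Ω × Ω => if p.1 = p.2 then (1 : ℝ) else -M p.1 p.2)) with hs
  have hne : s.Nonempty := ⟨1, Finset.mem_insert_self _ _⟩
  have hpos : ∀ t ∈ s, 0 < t := by
    intro t ht
    rw [hs, Finset.mem_insert, Finset.mem_image] at ht
    rcases ht with rfl | ⟨p, _, rfl⟩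
    · exact one_pos
    · split_ifs with h
      · exact one_pos
      · exact neg_pos.mpr (hneg _ _ h)
  have hmin : 0 < s.min' hne := hpos _ (Finset.min'_mem s hne)
  refine ⟨s.min' hne / 2, half_pos hmin, fun w w' hww' => ?_⟩
  have hmem : -M w w' ∈ s := by
    rw [hs, Finset.mem_insert, Finset.mem_image]
    right
    exact ⟨(w, w'), Finset.mem_univ _, by simp [hww']⟩
  have := Finset.min'_le s _ hmem
  linarith

/-- a real matrix with negative off-diagonal entries and zero row sums has no non-zero left-kernel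
vector with coordinate sum zero. -/
theorem eq_zero_of_offdiag_neg (M : Matrix Ω Ω ℝ) (hneg : ∀ w w', w ≠ w' → M w w' < 0)
    (hsum : ∀ w, ∑ w', M w w' = 0) (a : Ω → ℝ) (ha : ∑ w, a w = 0)
    (h : ∀ w', ∑ w, a w * M w w' = 0) : a = 0 := by
  obtain ⟨δ, hδ, hlt⟩ := exists_pos_lt_offdiag M hneg
  set A : Matrix Ω Ω ℝ := fun w w' => M w w' + δ with hA
  have hdet : A.det ≠ 0 := by
    apply det_ne_zero_of_sum_row_lt_diag
    intro w
    have hdiag : A w w = ∑ w' ∈ Finset.univ.erase w, (-M w w') + δ := by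
      have h1 := hsum w
      rw [← Finset.add_sum_erase _ _ (Finset.mem_univ w)] at h1
      rw [Finset.sum_neg_distrib, hA]
      simp only
      linarith
    have hoff : ∀ w' ∈ Finset.univ.erase w, ‖A w w'‖ = -M w w' - δ := by
      intro w' hw'
      have hne : w ≠ w' := (Finset.ne_of_mem_erase hw').symm
      have h2 := hlt w w' hne
      rw [Real.norm_eq_abs, abs_of_neg (by simp only [hA]; linarith)]
      simp only [hA]
      ring
    rw [Finset.sum_congr rfl hoff, Real.norm_eq_abs, hdiag]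
    have h3 : ∑ w' ∈ Finset.univ.erase w, (-M w w' - δ) ≤ ∑ w' ∈ Finset.univ.erase w, (-M w w') :=
      Finset.sum_le_sum fun w' _ => by linarith
    have h4 : 0 ≤ ∑ w' ∈ Finset.univ.erase w, (-M w w') :=
      Finset.sum_nonneg fun w' hw' => by
        have := hneg w w' (Finset.ne_of_mem_erase hw').symm
        linarith
    rw [abs_of_pos (by linarith)]
    linarith
  apply Matrix.eq_zero_of_vecMul_eq_zero hdet
  funext w'
  rw [Matrix.vecMul, dotProduct, Pi.zero_apply]
  have h5 : ∀ w, a w * A w w' = a w * M w w' + a w * δ := fun w => by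
    simp only [hA]
    ring
  rw [Finset.sum_congr rfl (fun w _ => h5 w), Finset.sum_add_distrib, h w', ← Finset.sum_mul, ha]
  ring

end Matrix

section Family

variable {Γ Ω E : Type*} [Group Γ] [Fintype Γ] [MulAction Γ Ω]
  [AddCommGroup E] [DistribMulAction Γ E]

/-- **Minkowski's averaging trick**: from elements negative off a prescribed coordinate, build an
equivariant family with the same property. -/
theorem exists_equivariant_family (Λ : E →+ (Ω → ℝ))
    (hsign : ∀ (γ : Γ) (x : E) (w : Ω), Λ (γ • x) (γ • w) < 0 ↔ Λ x w < 0)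
    (hex : ∀ w₀ : Ω, ∃ x : E, ∀ w, w ≠ w₀ → Λ x w < 0) :
    ∃ u : Ω → E, (∀ (γ : Γ) (w : Ω), u (γ • w) = γ • u w) ∧
      ∀ w w', w' ≠ w → Λ (u w) w' < 0 := by
  choose x hx using hex
  refine ⟨fun w => ∑ γ : Γ, γ • x (γ⁻¹ • w), fun σ w => ?_, fun w w' hww' => ?_⟩
  · rw [Finset.smul_sum]
    refine (Fintype.sum_equiv (Equiv.mulLeft σ) _ _ (fun γ => ?_)).symm
    rw [Equiv.coe_mulLeft, mul_smul, mul_inv_rev, mul_smul, inv_smul_smul]
  · rw [map_sum, Finset.sum_apply]
    refine Finset.sum_neg (fun γ _ => ?_) Finset.univ_nonempty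
    have h1 : Λ (γ • x (γ⁻¹ • w)) (γ • (γ⁻¹ • w')) < 0 := by
      rw [hsign]
      refine hx _ _ ?_
      intro h
      exact hww' (smul_left_cancel _ h)
    rwa [smul_inv_smul] at h1

end Family

section Inj

variable {Ω E : Type*} [Fintype Ω] [DecidableEq Ω] [AddCommGroup E]

/-- the family `u` is independent modulo the obvious relation. -/
theorem eq_zero_of_neg_off (Λ : E →+ (Ω → ℝ)) (hΛ : ∀ x, ∑ w, Λ x w = 0) (u : Ω → E)
    (hu : ∀ w w', w' ≠ w → Λ (u w) w' < 0) (a : Ω → ℤ) (h1 : ∑ w, a w • u w = 0)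
    (h2 : ∑ w, a w = 0) : a = 0 := by
  have key := eq_zero_of_offdiag_neg (fun w w' => Λ (u w) w')
    (fun w w' hww' => hu w w' hww'.symm) (fun w => hΛ (u w)) (fun w => (a w : ℝ))
    (by exact_mod_cast congrArg (Int.cast : ℤ → ℝ) h2) (fun w' => by
      have h3 := congrFun (congrArg Λ h1) w'
      rw [map_sum, Finset.sum_apply, map_zero, Pi.zero_apply] at h3
      rw [← h3]
      refine Finset.sum_congr rfl fun w _ => ?_
      rw [map_zsmul, Pi.smul_apply, zsmul_eq_mul])
  funext w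
  have := congrFun key w
  simpa using this

/-- the map `a ↦ (∑ a_w u_w, ∑ a_w)`. -/
noncomputable def isogMap (u : Ω → E) : (Ω → ℤ) →ₗ[ℤ] E × ℤ :=
  LinearMap.prod (∑ w, (LinearMap.proj w : (Ω → ℤ) →ₗ[ℤ] ℤ).smulRight (u w))
    (∑ w, (LinearMap.proj w : (Ω → ℤ) →ₗ[ℤ] ℤ))

omit [DecidableEq Ω] in
theorem isogMap_apply (u : Ω → E) (a : Ω → ℤ) :
    isogMap u a = (∑ w, a w • u w, ∑ w, a w) := by
  simp [isogMap, LinearMap.prod_apply]

theorem isogMap_injective (Λ : E →+ (Ω → ℝ)) (hΛ : ∀ x, ∑ w, Λ x w = 0) (u : Ω → E)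
    (hu : ∀ w w', w' ≠ w → Λ (u w) w' < 0) : Function.Injective (isogMap u) := by
  rw [← LinearMap.ker_eq_bot, LinearMap.ker_eq_bot']
  intro a ha
  rw [isogMap_apply, Prod.mk_eq_zero] at ha
  exact eq_zero_of_neg_off Λ hΛ u hu a ha.1 ha.2

omit [DecidableEq Ω] in
/-- an injective map `ℤ^Ω → E × ℤ` has finite cokernel as soon as the ranks agree. -/
theorem finite_quotient_range [Module.Finite ℤ E] (g : (Ω → ℤ) →ₗ[ℤ] E × ℤ)
    (hg : Function.Injective g) (hrank : Module.finrank ℤ E + 1 = Fintype.card Ω) :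
    Finite ((E × ℤ) ⧸ LinearMap.range g) := by
  have h1 := Submodule.finrank_quotient_add_finrank (LinearMap.range g)
  have h2 : Module.finrank ℤ (LinearMap.range g) = Fintype.card Ω := by
    rw [← (LinearEquiv.ofInjective g hg).finrank_eq, Module.finrank_fintype_fun_eq_card]
  have h3 : Module.finrank ℤ (E × ℤ) = Module.finrank ℤ E + 1 := by
    have h4 := Submodule.finrank_quotient_add_finrank
      (LinearMap.ker (LinearMap.snd ℤ E ℤ))
    have h5 : Module.finrank ℤ ((E × ℤ) ⧸ LinearMap.ker (LinearMap.snd ℤ E ℤ)) = 1 := by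
      rw [(LinearMap.quotKerEquivOfSurjective (LinearMap.snd ℤ E ℤ)
        LinearMap.snd_surjective).finrank_eq, Module.finrank_self]
    have h6 : Module.finrank ℤ (LinearMap.ker (LinearMap.snd ℤ E ℤ)) = Module.finrank ℤ E := by
      rw [← LinearMap.range_inl, ← (LinearEquiv.ofInjective (LinearMap.inl ℤ E ℤ)
        LinearMap.inl_injective).finrank_eq]
    omega
  have h7 : Module.finrank ℤ ((E × ℤ) ⧸ LinearMap.range g) = 0 := by omega
  rw [Module.finrank_eq_zero_iff_isTorsion] at h7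
  exact Module.finite_of_fg_torsion _ h7

end Inj

end Fermat.Agent.S56lib.EulerG
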