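/-
S56 marathon, EulerG/ (helper2).  (E4): the `S`-unit theorem in ISOGENY form.

For a number field `L`, a finite set `T` of finite primes of `L` and `Ω := T ⊔ {infinite places}`,
and a group `Aut(L/K)` preserving `T`, there is an `Aut(L/K)`-equivariant family of `T`-units
`u : Ω → 𝒪_{L,T}^×` such that `ℤ[Ω] → 𝒪_{L,T}^× × ℤ`, `a ↦ (∏ u_w ^ a_w, ∑ a_w)` is injective with
finite cokernel.
-/
import Mathlib
import Fermat.Agent.S55lib.FirstIneq.SUnitRank
import Fermat.Agent.S55lib.FirstIneq.SUnitGalois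
import Fermat.Agent.S56lib.EulerG.Minkowski

set_option autoImplicit false
set_option linter.unusedSectionVars false

namespace Fermat.Agent.S56lib.EulerG

open NumberField IsDedekindDomain Module Fermat.Agent.S55lib.FirstIneq

section Log

variable {L : Type*} [Field L] [NumberField L] (T : Finset (HeightOneSpectrum (𝓞 L)))

/-- the primes in `T` together with the infinite places of `L`. -/
abbrev Pl : Type _ := ↥T ⊕ InfinitePlace L

/-- the normalised absolute value at a place of `Pl T`. -/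
noncomputable def absPl : Pl T → L → ℝ
  | Sum.inl v => fun x => FinitePlace.mk v.1 x
  | Sum.inr w => fun x => w x ^ w.mult

theorem absPl_inl (v : ↥T) (x : L) : absPl T (Sum.inl v) x = FinitePlace.mk v.1 x := rfl

theorem absPl_inr (w : InfinitePlace L) (x : L) : absPl T (Sum.inr w) x = w x ^ w.mult := rfl

theorem absPl_mul (w : Pl T) (x y : L) : absPl T w (x * y) = absPl T w x * absPl T w y := by
  rcases w with v | w
  · simp only [absPl_inl, map_mul]
  · simp only [absPl_inr, map_mul, mul_pow]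

theorem absPl_pos (w : Pl T) {x : L} (hx : x ≠ 0) : 0 < absPl T w x := by
  rcases w with v | w
  · rw [absPl_inl]
    exact FinitePlace.pos_iff.mpr hx
  · rw [absPl_inr]
    exact pow_pos (InfinitePlace.pos_iff.mpr hx) _

theorem finitePlace_mk_eq (v : HeightOneSpectrum (𝓞 L)) (x : L) :
    FinitePlace.mk v x =
      ((WithZeroMulInt.toNNReal (HeightOneSpectrum.absNorm_ne_zero v) (v.valuation L x) : NNReal) :
        ℝ) := by
  rw [FinitePlace.mk_apply, FinitePlace.norm_embedding']

theorem finitePlace_mk_eq_one {v : HeightOneSpectrum (𝓞 L)} {x : L}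
    (h : v.valuation L x = 1) : FinitePlace.mk v x = 1 := by
  rw [finitePlace_mk_eq, h, map_one, NNReal.coe_one]

theorem finitePlace_mk_lt_one_iff (v : HeightOneSpectrum (𝓞 L)) (x : L) :
    FinitePlace.mk v x < 1 ↔ v.valuation L x < 1 := by
  rw [finitePlace_mk_eq, ← NNReal.coe_one, NNReal.coe_lt_coe]
  exact WithZeroMulInt.toNNReal_lt_one_iff (HeightOneSpectrum.one_lt_absNorm_nnreal v)

/-- the logarithmic vector of a `T`-unit. -/
noncomputable def logVec : Additive (sUnit T) →+ (Pl T → ℝ) where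
  toFun x w := Real.log (absPl T w (((x.toMul : sUnit T) : Lˣ) : L))
  map_zero' := by
    funext w
    have h1 : absPl T w (1 : L) = 1 := by
      have h2 := absPl_mul T w 1 1
      rw [mul_one] at h2
      have h3 := absPl_pos T w (one_ne_zero (α := L))
      nlinarith
    simp [h1]
  map_add' x y := by
    funext w
    simp only [toMul_add, Subgroup.coe_mul, Units.val_mul, Pi.add_apply]
    rw [absPl_mul, Real.log_mul (absPl_pos T w (Units.ne_zero _)).ne'
      (absPl_pos T w (Units.ne_zero _)).ne']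

theorem logVec_apply (x : Additive (sUnit T)) (w : Pl T) :
    logVec T x w = Real.log (absPl T w (((x.toMul : sUnit T) : Lˣ) : L)) := rfl

theorem logVec_inl_neg_iff (x : Additive (sUnit T)) (v : ↥T) :
    logVec T x (Sum.inl v) < 0 ↔ v.1.valuation L (((x.toMul : sUnit T) : Lˣ) : L) < 1 := by
  rw [logVec_apply, Real.log_neg_iff (absPl_pos T _ (Units.ne_zero _)), absPl_inl,
    finitePlace_mk_lt_one_iff]

theorem logVec_inl_eq_zero (x : Additive (sUnit T)) (v : ↥T)
    (h : v.1.valuation L (((x.toMul : sUnit T) : Lˣ) : L) = 1) : logVec T x (Sum.inl v) = 0 := by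
  rw [logVec_apply, absPl_inl, finitePlace_mk_eq_one h, Real.log_one]

theorem logVec_inr (x : Additive (sUnit T)) (w : InfinitePlace L) :
    logVec T x (Sum.inr w) = w.mult * Real.log (w (((x.toMul : sUnit T) : Lˣ) : L)) := by
  rw [logVec_apply, absPl_inr, Real.log_pow]

theorem logVec_inr_neg_iff (x : Additive (sUnit T)) (w : InfinitePlace L) :
    logVec T x (Sum.inr w) < 0 ↔ w (((x.toMul : sUnit T) : Lˣ) : L) < 1 := by
  rw [logVec_apply, Real.log_neg_iff (absPl_pos T _ (Units.ne_zero _)), absPl_inr,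
    pow_lt_one_iff_of_nonneg (apply_nonneg _ _) InfinitePlace.mult_ne_zero]

/-- **product formula** for `T`-units. -/
theorem sum_logVec (x : Additive (sUnit T)) : ∑ w, logVec T x w = 0 := by
  set y : L := (((x.toMul : sUnit T) : Lˣ) : L) with hy
  have hy0 : y ≠ 0 := Units.ne_zero _
  have hfin : ∏ᶠ w : FinitePlace L, w y = ∏ v ∈ T, FinitePlace.mk v y := by
    simp only [← finprod_comp_equiv FinitePlace.equivHeightOneSpectrum.symm,
      FinitePlace.equivHeightOneSpectrum_symm_apply]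
    rw [finprod_eq_prod_of_mulSupport_subset (s := T)]
    · rfl
    · intro v hv
      by_contra hvT
      apply hv
      have h1 := (mem_sUnit_iff.mp (x.toMul : sUnit T).2) v hvT
      have h2 := finitePlace_mk_eq_one h1
      rwa [FinitePlace.mk_apply] at h2
  have hprod := prod_abs_eq_one hy0
  rw [hfin] at hprod
  rw [Fintype.sum_sum_type]
  simp only [logVec_apply, absPl_inl, absPl_inr]
  rw [← Real.log_prod (fun i _ => (FinitePlace.pos_iff.mpr hy0).ne'),
    ← Real.log_prod (fun i _ => (pow_pos (InfinitePlace.pos_iff.mpr hy0) _).ne'),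
    ← Real.log_mul, Finset.prod_coe_sort T (fun v => FinitePlace.mk v y), mul_comm, hprod,
    Real.log_one]
  · exact (Finset.prod_pos fun i _ => FinitePlace.pos_iff.mpr hy0).ne'
  · exact (Finset.prod_pos fun i _ => pow_pos (InfinitePlace.pos_iff.mpr hy0) _).ne'

end Log

section Span

variable {L : Type*} [Field L] [NumberField L] (T : Finset (HeightOneSpectrum (𝓞 L)))

/-- a `T`-unit whose divisor is a positive multiple of the prime `v ∈ T`. -/
theorem exists_sUnit_single (v : ↥T) :
    ∃ x : Additive (sUnit T), v.1.valuation L (((x.toMul : sUnit T) : Lˣ) : L) < 1 ∧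
      ∀ v' : HeightOneSpectrum (𝓞 L), v' ≠ v.1 →
        v'.valuation L (((x.toMul : sUnit T) : Lˣ) : L) = 1 := by
  obtain ⟨π, hπ0, hπ⟩ := exists_generator_pow v.1
  have hπL : algebraMap (𝓞 L) L π ≠ 0 := by
    intro h
    exact hπ0 (RingOfIntegers.coe_injective (by simpa using h))
  have hne : ∀ v' : HeightOneSpectrum (𝓞 L), v' ≠ v.1 →
      v'.valuation L (algebraMap (𝓞 L) L π) = 1 := by
    intro v' hv'
    rw [HeightOneSpectrum.valuation_of_algebraMap]
    exact intValuation_of_span_eq_pow_of_ne hv' hπ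
  have hmem : Units.mk0 (algebraMap (𝓞 L) L π) hπL ∈ sUnit T := by
    rw [mem_sUnit_iff]
    intro w hw
    rw [Units.val_mk0]
    refine hne w ?_
    rintro rfl
    exact hw v.2
  refine ⟨Additive.ofMul ⟨Units.mk0 (algebraMap (𝓞 L) L π) hπL, hmem⟩, ?_, hne⟩
  show v.1.valuation L (algebraMap (𝓞 L) L π) < 1
  rw [HeightOneSpectrum.valuation_of_algebraMap, HeightOneSpectrum.intValuation_lt_one_iff_mem]
  have h1 : π ∈ v.1.asIdeal ^ classNumber L := by
    rw [← hπ]
    exact Ideal.mem_span_singleton_self π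
  exact Ideal.pow_le_self (classNumber_ne_zero L) h1

theorem sum_eq_zero_of_mem_span {z : Pl T → ℝ}
    (hz : z ∈ Submodule.span ℝ (Set.range (logVec T))) : ∑ w, z w = 0 := by
  induction hz using Submodule.span_induction with
  | mem z hz =>
    obtain ⟨x, rfl⟩ := hz
    exact sum_logVec T x
  | zero => simp
  | add y z _ _ hy hz =>
    simp only [Pi.add_apply, Finset.sum_add_distrib, hy, hz, add_zero]
  | smul c y _ hy =>
    simp only [Pi.smul_apply, smul_eq_mul, ← Finset.mul_sum, hy, mul_zero]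

open NumberField.Units NumberField.Units.dirichletUnitTheorem in
/-- vectors of sum zero supported on the infinite places are in the real span of the logarithms of
the units (Dirichlet). -/
theorem mem_span_of_inl_eq_zero (z : Pl T → ℝ) (hz : ∑ w, z w = 0)
    (hz0 : ∀ v : ↥T, z (Sum.inl v) = 0) : z ∈ Submodule.span ℝ (Set.range (logVec T)) := by
  classical
  have key : ∀ r ∈ Submodule.span ℝ (unitLattice L : Set (logSpace L)),
      ∃ t ∈ Submodule.span ℝ (Set.range (logVec T)), (∀ v : ↥T, t (Sum.inl v) = 0) ∧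
        ∀ w : {w : InfinitePlace L // w ≠ w₀}, t (Sum.inr w.1) = r w := by
    intro r hr
    induction hr using Submodule.span_induction with
    | mem r hr =>
      obtain ⟨ε, -, rfl⟩ := hr
      refine ⟨logVec T (unitsToSUnit T ε), Submodule.subset_span ⟨_, rfl⟩, fun v => ?_,
        fun w => ?_⟩
      · apply logVec_inl_eq_zero
        rw [coe_unitsToSUnit]
        have h1 : v.1.valuation L ((algebraMap (𝓞 L) L) (ε.toMul : 𝓞 L)) ≤ 1 :=
          v.1.valuation_le_one _
        have h2 : v.1.valuation L ((algebraMap (𝓞 L) L) ((ε.toMul⁻¹ : (𝓞 L)ˣ) : 𝓞 L)) ≤ 1 :=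
          v.1.valuation_le_one _
        have h3 : v.1.valuation L ((algebraMap (𝓞 L) L) (ε.toMul : 𝓞 L)) *
            v.1.valuation L ((algebraMap (𝓞 L) L) ((ε.toMul⁻¹ : (𝓞 L)ˣ) : 𝓞 L)) = 1 := by
          rw [← map_mul, ← map_mul, Units.mul_inv, map_one, map_one]
        exact eq_one_of_one_le_mul_left h1 h2 h3.ge
      · rw [logVec_inr, coe_unitsToSUnit]
        rfl
    | zero =>
      exact ⟨0, Submodule.zero_mem _, fun _ => rfl, fun _ => rfl⟩
    | add r s _ _ hr hs =>
      obtain ⟨t, ht, ht0, ht1⟩ := hr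
      obtain ⟨t', ht', ht0', ht1'⟩ := hs
      refine ⟨t + t', Submodule.add_mem _ ht ht', fun v => ?_, fun w => ?_⟩
      · rw [Pi.add_apply, ht0, ht0', add_zero]
      · rw [Pi.add_apply, Pi.add_apply, ht1, ht1']
    | smul c r _ hr =>
      obtain ⟨t, ht, ht0, ht1⟩ := hr
      refine ⟨c • t, Submodule.smul_mem _ _ ht, fun v => ?_, fun w => ?_⟩
      · rw [Pi.smul_apply, ht0, smul_zero]
      · rw [Pi.smul_apply, Pi.smul_apply, ht1]
  obtain ⟨t, ht, ht0, ht1⟩ := key (fun w => z (Sum.inr w.1))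
    (by rw [unitLattice_span_eq_top]; trivial)
  have hts := sum_eq_zero_of_mem_span T ht
  suffices h : z = t by rw [h]; exact ht
  have hsub : ∀ w : Pl T, w ≠ Sum.inr w₀ → z w - t w = 0 := by
    intro w hw
    rcases w with v | w
    · rw [hz0, ht0, sub_zero]
    · have hw' : w ≠ w₀ := fun h => hw (by rw [h])
      rw [ht1 ⟨w, hw'⟩, sub_self]
  have h0 : z (Sum.inr w₀) - t (Sum.inr w₀) = 0 := by
    have h1 : ∑ w, (z w - t w) = 0 := by
      rw [Finset.sum_sub_distrib, hz, hts, sub_zero]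
    rwa [Finset.sum_eq_single (Sum.inr w₀) (fun w _ hw => hsub w hw)
      (fun h => absurd (Finset.mem_univ _) h)] at h1
  funext w
  by_cases hw : w = Sum.inr w₀
  · rw [hw]
    exact sub_eq_zero.mp h0
  · exact sub_eq_zero.mp (hsub w hw)

/-- **the logarithms of the `T`-units span the sum-zero hyperplane**. -/
theorem mem_span_logVec (y : Pl T → ℝ) (hy : ∑ w, y w = 0) :
    y ∈ Submodule.span ℝ (Set.range (logVec T)) := by
  classical
  choose xs hxs1 hxs2 using exists_sUnit_single T
  set c : ↥T → ℝ := fun v => logVec T (xs v) (Sum.inl v) with hc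
  have hc0 : ∀ v, c v ≠ 0 := fun v => ((logVec_inl_neg_iff T (xs v) v).mpr (hxs1 v)).ne
  have hoff : ∀ v v' : ↥T, v' ≠ v → logVec T (xs v') (Sum.inl v) = 0 := by
    intro v v' hvv'
    apply logVec_inl_eq_zero
    apply hxs2
    intro h
    exact hvv' (Subtype.ext h).symm
  set s : Pl T → ℝ := ∑ v : ↥T, (y (Sum.inl v) / c v) • logVec T (xs v) with hs
  have hsmem : s ∈ Submodule.span ℝ (Set.range (logVec T)) :=
    Submodule.sum_mem _ fun v _ => Submodule.smul_mem _ _ (Submodule.subset_span ⟨_, rfl⟩)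
  have hsinl : ∀ v : ↥T, s (Sum.inl v) = y (Sum.inl v) := by
    intro v
    rw [hs, Finset.sum_apply, Finset.sum_eq_single v]
    · rw [Pi.smul_apply, smul_eq_mul]
      exact div_mul_cancel₀ _ (hc0 v)
    · intro v' _ hv'
      rw [Pi.smul_apply, hoff v v' hv', smul_zero]
    · intro h
      exact absurd (Finset.mem_univ _) h
  have h1 : y - s ∈ Submodule.span ℝ (Set.range (logVec T)) := by
    apply mem_span_of_inl_eq_zero
    · simp only [Pi.sub_apply, Finset.sum_sub_distrib, hy, sum_eq_zero_of_mem_span T hsmem,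
        sub_zero]
    · intro v
      rw [Pi.sub_apply, hsinl, sub_self]
  have h2 : y = (y - s) + s := by abel
  rw [h2]
  exact Submodule.add_mem _ h1 hsmem

/-- for every place `w₀ ∈ Pl T` there is a `T`-unit which is small at all the other places. -/
theorem exists_sUnit_neg_off (w₀ : Pl T) :
    ∃ x : Additive (sUnit T), ∀ w, w ≠ w₀ → logVec T x w < 0 := by
  classical
  exact exists_neg_off (logVec T) (mem_span_logVec T) w₀

end Span

section Galois

variable {K L : Type*} [Field K] [Field L] [NumberField L] [Algebra K L]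

/-- the action of `σ ∈ Aut(L/K)` on the finite primes of `L`: `finAct σ w = σ(w)`. -/
noncomputable def finAct (σ : L ≃ₐ[K] L) (w : HeightOneSpectrum (𝓞 L)) :
    HeightOneSpectrum (𝓞 L) :=
  placeComap (RingOfIntegers.mapRingEquiv ((σ.symm : L ≃ₐ[K] L) : L ≃+* L)) w

theorem valuation_finAct (σ : L ≃ₐ[K] L) (w : HeightOneSpectrum (𝓞 L)) (x : L) :
    (finAct σ w).valuation L x = w.valuation L (σ.symm x) :=
  valuation_placeComap ((σ.symm : L ≃ₐ[K] L) : L ≃+* L) w x

theorem mem_finAct (σ : L ≃ₐ[K] L) (w : HeightOneSpectrum (𝓞 L)) (r : 𝓞 L) :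
    r ∈ (finAct σ w).asIdeal ↔
      RingOfIntegers.mapRingEquiv ((σ.symm : L ≃ₐ[K] L) : L ≃+* L) r ∈ w.asIdeal := Iff.rfl

theorem algebraMap_mapRingEquiv (e : L ≃+* L) (r : 𝓞 L) :
    algebraMap (𝓞 L) L (RingOfIntegers.mapRingEquiv e r) = e (algebraMap (𝓞 L) L r) :=
  RingOfIntegers.mapRingEquiv_apply e r

theorem finAct_one (w : HeightOneSpectrum (𝓞 L)) : finAct (1 : L ≃ₐ[K] L) w = w := by
  apply HeightOneSpectrum.ext
  ext r
  rw [mem_finAct]
  have h : RingOfIntegers.mapRingEquiv (((1 : L ≃ₐ[K] L).symm : L ≃ₐ[K] L) : L ≃+* L) r = r := by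
    apply RingOfIntegers.coe_injective
    show algebraMap (𝓞 L) L _ = algebraMap (𝓞 L) L r
    rw [algebraMap_mapRingEquiv]
    rfl
  rw [h]

theorem finAct_mul (σ τ : L ≃ₐ[K] L) (w : HeightOneSpectrum (𝓞 L)) :
    finAct (σ * τ) w = finAct σ (finAct τ w) := by
  apply HeightOneSpectrum.ext
  ext r
  rw [mem_finAct, mem_finAct, mem_finAct]
  have h : RingOfIntegers.mapRingEquiv (((σ * τ).symm : L ≃ₐ[K] L) : L ≃+* L) r =
      RingOfIntegers.mapRingEquiv ((τ.symm : L ≃ₐ[K] L) : L ≃+* L)
        (RingOfIntegers.mapRingEquiv ((σ.symm : L ≃ₐ[K] L) : L ≃+* L) r) := by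
    apply RingOfIntegers.coe_injective
    show algebraMap (𝓞 L) L _ = algebraMap (𝓞 L) L _
    rw [algebraMap_mapRingEquiv, algebraMap_mapRingEquiv, algebraMap_mapRingEquiv]
    rfl
  rw [h]

variable (K) in
/-- `T` is stable under `Aut(L/K)`. -/
def TStable (T : Finset (HeightOneSpectrum (𝓞 L))) : Prop :=
  ∀ (σ : L ≃ₐ[K] L) (w : HeightOneSpectrum (𝓞 L)), w ∈ T → finAct σ w ∈ T

variable {T : Finset (HeightOneSpectrum (𝓞 L))}

theorem finAct_mem_iff (hT : TStable K T) (σ : L ≃ₐ[K] L) (w : HeightOneSpectrum (𝓞 L)) :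
    finAct σ w ∈ T ↔ w ∈ T := by
  refine ⟨fun h => ?_, hT σ w⟩
  have h1 := hT σ⁻¹ _ h
  rwa [← finAct_mul, inv_mul_cancel, finAct_one] at h1

/-- the action of `Aut(L/K)` on `Pl T`. -/
noncomputable def plAct (hT : TStable K T) (σ : L ≃ₐ[K] L) : Pl T → Pl T :=
  Sum.map (fun v => ⟨finAct σ v.1, hT σ v.1 v.2⟩) (fun w => σ • w)

theorem plAct_inl (hT : TStable K T) (σ : L ≃ₐ[K] L) (v : ↥T) :
    plAct hT σ (Sum.inl v) = Sum.inl ⟨finAct σ v.1, hT σ v.1 v.2⟩ := rfl

theorem plAct_inr (hT : TStable K T) (σ : L ≃ₐ[K] L) (w : InfinitePlace L) :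
    plAct hT σ (Sum.inr w) = Sum.inr (σ • w) := rfl

theorem plAct_one (hT : TStable K T) (w : Pl T) : plAct hT (1 : L ≃ₐ[K] L) w = w := by
  rcases w with v | w
  · rw [plAct_inl]
    exact congrArg Sum.inl (Subtype.ext (finAct_one v.1))
  · rw [plAct_inr, one_smul]

theorem plAct_mul (hT : TStable K T) (σ τ : L ≃ₐ[K] L) (w : Pl T) :
    plAct hT (σ * τ) w = plAct hT σ (plAct hT τ w) := by
  rcases w with v | w
  · rw [plAct_inl, plAct_inl, plAct_inl]
    exact congrArg Sum.inl (Subtype.ext (finAct_mul σ τ v.1))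
  · rw [plAct_inr, plAct_inr, plAct_inr, mul_smul]

/-- the action of `Aut(L/K)` on `Pl T` as a `MulAction` (not an instance). -/
@[reducible] noncomputable def plMulAction (hT : TStable K T) : MulAction (L ≃ₐ[K] L) (Pl T) where
  smul σ w := plAct hT σ w
  one_smul w := plAct_one hT w
  mul_smul σ τ w := plAct_mul hT σ τ w

theorem apply_mem_sUnit_of_stable (hT : TStable K T) (σ : L ≃ₐ[K] L) {x : Lˣ}
    (hx : x ∈ sUnit T) : Units.map (σ : L →* L) x ∈ sUnit T := by
  rw [mem_sUnit_iff] at hx ⊢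
  intro w hw
  have h1 : finAct σ⁻¹ w ∉ T := fun h => hw ((finAct_mem_iff hT σ⁻¹ w).mp h)
  have h2 := hx _ h1
  rw [valuation_finAct] at h2
  exact h2

/-- the action of `σ ∈ Aut(L/K)` on the `T`-units, multiplicatively. -/
noncomputable def sUnitAct (hT : TStable K T) (σ : L ≃ₐ[K] L) : sUnit T →* sUnit T :=
  ((Units.map (σ : L →* L)).comp (sUnit T).subtype).codRestrict (sUnit T)
    (fun x => apply_mem_sUnit_of_stable hT σ x.2)

/-- the action of `σ ∈ Aut(L/K)` on the `T`-units, as a `ℤ`-linear map. -/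
noncomputable def sUnitActL (hT : TStable K T) (σ : L ≃ₐ[K] L) :
    Additive (sUnit T) →ₗ[ℤ] Additive (sUnit T) :=
  AddMonoidHom.toIntLinearMap (MonoidHom.toAdditive (sUnitAct hT σ))

theorem coe_sUnitActL (hT : TStable K T) (σ : L ≃ₐ[K] L) (x : Additive (sUnit T)) :
    ((((sUnitActL hT σ x).toMul : sUnit T) : Lˣ) : L) = σ (((x.toMul : sUnit T) : Lˣ) : L) := rfl

theorem sUnitActL_one (hT : TStable K T) (x : Additive (sUnit T)) :
    sUnitActL hT (1 : L ≃ₐ[K] L) x = x :=
  sUnit_ext (by rw [coe_sUnitActL]; rfl)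

theorem sUnitActL_mul (hT : TStable K T) (σ τ : L ≃ₐ[K] L) (x : Additive (sUnit T)) :
    sUnitActL hT (σ * τ) x = sUnitActL hT σ (sUnitActL hT τ x) :=
  sUnit_ext (by rw [coe_sUnitActL, coe_sUnitActL, coe_sUnitActL]; rfl)

/-- the action of `Aut(L/K)` on the `T`-units as a `DistribMulAction` (not an instance). -/
@[reducible] noncomputable def sUnitDistribMulAction (hT : TStable K T) :
    DistribMulAction (L ≃ₐ[K] L) (Additive (sUnit T)) where
  smul σ x := sUnitActL hT σ x
  one_smul x := sUnitActL_one hT x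
  mul_smul σ τ x := sUnitActL_mul hT σ τ x
  smul_zero σ := map_zero (sUnitActL hT σ)
  smul_add σ x y := map_add (sUnitActL hT σ) x y

theorem logVec_act_neg_iff (hT : TStable K T) (σ : L ≃ₐ[K] L) (x : Additive (sUnit T))
    (w : Pl T) : logVec T (sUnitActL hT σ x) (plAct hT σ w) < 0 ↔ logVec T x w < 0 := by
  rcases w with v | w
  · rw [plAct_inl, logVec_inl_neg_iff, logVec_inl_neg_iff, coe_sUnitActL, valuation_finAct,
      AlgEquiv.symm_apply_apply]
  · rw [plAct_inr, logVec_inr_neg_iff, logVec_inr_neg_iff, coe_sUnitActL,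
      InfinitePlace.smul_apply, AlgEquiv.symm_apply_apply]

variable [FiniteDimensional K L]

theorem card_pl (T : Finset (HeightOneSpectrum (𝓞 L))) :
    finrank ℤ (Additive (sUnit T)) + 1 = Fintype.card (Pl T) := by
  rw [finrank_sUnit, Fintype.card_sum, Fintype.card_coe, Units.rank]
  have : 0 < Fintype.card (InfinitePlace L) := Fintype.card_pos
  omega

/-- **(E4), the `S`-unit theorem in isogeny form**: an `Aut(L/K)`-equivariant family of `T`-units
indexed by `Pl T = T ⊔ {infinite places}` such that `ℤ[Pl T] → 𝒪_{L,T}^× × ℤ` is injective with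
finite cokernel. -/
theorem exists_sUnit_isogeny (hT : TStable K T) :
    ∃ u : Pl T → Additive (sUnit T),
      (∀ (σ : L ≃ₐ[K] L) (w : Pl T), u (plAct hT σ w) = sUnitActL hT σ (u w)) ∧
      Function.Injective (isogMap u) ∧
      Finite ((Additive (sUnit T) × ℤ) ⧸ LinearMap.range (isogMap u)) := by
  classical
  let _ : Fintype (L ≃ₐ[K] L) := Fintype.ofFinite _
  let _ := plMulAction hT
  let _ := sUnitDistribMulAction hT
  obtain ⟨u, hu1, hu2⟩ := exists_equivariant_family (Γ := L ≃ₐ[K] L) (logVec T)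
    (fun σ x w => logVec_act_neg_iff hT σ x w) (exists_sUnit_neg_off T)
  have hinj := isogMap_injective (logVec T) (sum_logVec T) u hu2
  exact ⟨u, hu1, hinj, finite_quotient_range _ hinj (card_pl T)⟩

/-- the permutation action of `Aut(L/K)` on `ℤ[Pl T]`, realised as functions on `Pl T`. -/
noncomputable def permL (hT : TStable K T) (σ : L ≃ₐ[K] L) : (Pl T → ℤ) →ₗ[ℤ] (Pl T → ℤ) :=
  LinearMap.funLeft ℤ ℤ (plAct hT σ⁻¹)

theorem permL_apply (hT : TStable K T) (σ : L ≃ₐ[K] L) (a : Pl T → ℤ) (w : Pl T) :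
    permL hT σ a w = a (plAct hT σ⁻¹ w) := rfl

/-- equivariance of `isogMap u` for an equivariant family `u`. -/
theorem isogMap_equivariant (hT : TStable K T) (u : Pl T → Additive (sUnit T))
    (hu : ∀ (σ : L ≃ₐ[K] L) (w : Pl T), u (plAct hT σ w) = sUnitActL hT σ (u w))
    (σ : L ≃ₐ[K] L) (a : Pl T → ℤ) :
    isogMap u (permL hT σ a) = ((sUnitActL hT σ).prodMap LinearMap.id) (isogMap u a) := by
  have hbij : Function.Bijective (plAct hT σ) := by
    refine Function.bijective_iff_has_inverse.mpr ⟨plAct hT σ⁻¹, fun w => ?_, fun w => ?_⟩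
    · rw [← plAct_mul, inv_mul_cancel, plAct_one]
    · rw [← plAct_mul, mul_inv_cancel, plAct_one]
  have hinv : ∀ w, plAct hT σ⁻¹ (plAct hT σ w) = w := fun w => by
    rw [← plAct_mul, inv_mul_cancel, plAct_one]
  rw [isogMap_apply, isogMap_apply, LinearMap.prodMap_apply, LinearMap.id_apply, map_sum]
  refine Prod.ext ?_ ?_
  · show ∑ w, permL hT σ a w • u w = ∑ w, sUnitActL hT σ (a w • u w)
    rw [← (Equiv.ofBijective _ hbij).sum_comp]
    refine Finset.sum_congr rfl fun w _ => ?_
    rw [Equiv.ofBijective_apply, permL_apply, hinv, hu, map_zsmul]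
  · show ∑ w, permL hT σ a w = ∑ w, a w
    rw [← (Equiv.ofBijective _ hbij).sum_comp]
    refine Finset.sum_congr rfl fun w _ => ?_
    rw [Equiv.ofBijective_apply, permL_apply, hinv]

end Galois

end Fermat.Agent.S56lib.EulerG
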